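import Mathlib.RingTheory.Polynomial.Cyclotomic.Roots
import Mathlib.RingTheory.RootsOfUnity.Complex
import Mathlib.NumberTheory.Primorial
import Mathlib.GroupTheory.OrderOfElement
import Mathlib.Data.Nat.Squarefree
import Mathlib.Tactic

/-!
# Linear relations between roots of unity

If the common order `m` of the normalised roots of a minimal relation had a prime `p` with
`p ^ 2 ∣ m` or `p > k`, the relation would split by the exponents modulo `p` (Mann).
-/

set_option autoImplicit false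

noncomputable section

open Finset Polynomial

namespace FA.RootRelations

variable {ι : Type*}

/-- A relation at one primitive root holds at all of them. -/
theorem relation_conj {m : ℕ} (hm : 0 < m) {w w' : ℂ} (hw : IsPrimitiveRoot w m)
    (hw' : IsPrimitiveRoot w' m) (T : Finset ι) (a : ι → ℚ) (n : ι → ℕ)
    (h : ∑ i ∈ T, (a i : ℂ) * w ^ n i = 0) : ∑ i ∈ T, (a i : ℂ) * w' ^ n i = 0 := by
  have key : ∀ z : ℂ,
      aeval z (∑ i ∈ T, C (a i) * X ^ n i) = ∑ i ∈ T, (a i : ℂ) * z ^ n i := fun z => by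
    simp [map_sum]
  have hdvd : minpoly ℚ w ∣ ∑ i ∈ T, C (a i) * X ^ n i := minpoly.dvd ℚ w ((key w).trans h)
  rw [← cyclotomic_eq_minpoly_rat hw hm] at hdvd
  rw [← key, aeval_eq_zero_of_dvd_aeval_eq_zero hdvd]
  rw [cyclotomic_eq_minpoly_rat hw' hm]
  exact minpoly.aeval _ _

/-- The exponents modulo `p` split a relation, with equal sums. -/
theorem sums_of_primitive {p : ℕ} (hp : 0 < p) (T : Finset ι) (c : ι → ℂ) (n : ι → ℕ)
    (S : Finset ℂ) (hS : ∀ β ∈ S, β ^ p = 1 ∧ ∑ i ∈ T, c i * β ^ n i = 0) :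
    ∀ β ∈ S, ∑ r ∈ range p, (∑ i ∈ T with n i % p = r, c i) * β ^ r = 0 := by
  intro β hβ
  obtain ⟨h1, h2⟩ := hS β hβ
  refine Eq.trans ?_ h2
  rw [← sum_fiberwise_of_maps_to (g := fun i => n i % p) (t := range p)
    fun i _ => mem_range.2 (Nat.mod_lt _ hp)]
  refine sum_congr rfl fun r _ => ?_
  rw [sum_mul]
  refine sum_congr rfl fun i hi => ?_
  rw [pow_eq_pow_mod (n i) h1, (mem_filter.1 hi).2]

/-- The coefficients of a polynomial of degree below `p` with many roots. -/
theorem coeff_eq_zero_of_roots {d : ℕ} (A : ℕ → ℂ) (S : Finset ℂ) (hd : d ≤ #S)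
    (h : ∀ β ∈ S, ∑ r ∈ range d, A r * β ^ r = 0) : ∀ r < d, A r = 0 := by
  intro r hr
  have hdeg : (∑ r ∈ range d, C (A r) * X ^ r).natDegree < #S := by
    refine lt_of_le_of_lt (natDegree_sum_le_of_forall_le _ _ fun i hi =>
      (natDegree_C_mul_X_pow_le _ _).trans ?_) (show d - 1 < #S by omega)
    have := mem_range.1 hi
    omega
  have h0 := eq_zero_of_natDegree_lt_card_of_eval_eq_zero' _ S
    (fun β hβ => by rw [eval_finsetSum]; simpa using h β hβ) hdeg
  have := congrArg (fun q : ℂ[X] => q.coeff r) h0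
  simpa [finsetSum_coeff, coeff_X_pow, hr] using this

variable [Fintype ι]

/-- **The splitting step.** -/
theorem groups_vanish {p q : ℕ} (hp : p.Prime) (hq : 0 < q) {w : ℂ}
    (hw : IsPrimitiveRoot w (p * q)) (a : ι → ℚ) (n : ι → ℕ)
    (hcase : p ∣ q ∨ Fintype.card ι < p) (h : ∑ i, (a i : ℂ) * w ^ n i = 0) (r : ℕ) :
    ∑ i ∈ univ with n i % p = r, (a i : ℂ) * w ^ n i = 0 := by
  classical
  rcases Nat.lt_or_ge r p with hr | hr
  swap
  · rw [filter_eq_empty_iff.2 fun i _ (hi : n i % p = r) =>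
      absurd (hi ▸ Nat.mod_lt (n i) hp.pos) (not_lt.2 hr),
      sum_empty]
  have hm : 0 < p * q := Nat.mul_pos hp.pos hq
  have : NeZero p := ⟨hp.ne_zero⟩
  obtain ⟨β₀, hβ₀⟩ : ∃ β₀ : ℂ, IsPrimitiveRoot β₀ p :=
    ⟨_, Complex.isPrimitiveRoot_exp p hp.ne_zero⟩
  by_cases hpq : p ∣ q
  · -- all `p` twists of `w` are primitive
    have hS : ∀ β ∈ (range p).image (β₀ ^ ·),
        β ^ p = 1 ∧ ∑ i, ((a i : ℂ) * w ^ n i) * β ^ n i = 0 := by
      intro β hβ
      obtain ⟨s, -, rfl⟩ := mem_image.1 hβ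
      refine ⟨by rw [← pow_mul, mul_comm, pow_mul, hβ₀.pow_eq_one, one_pow], ?_⟩
      obtain ⟨u, hu, hu'⟩ :=
        (hw.pow hm (mul_comm p q) : IsPrimitiveRoot (w ^ q) p).eq_pow_of_pow_eq_one
        (show (β₀ ^ s) ^ p = 1 by rw [← pow_mul, mul_comm, pow_mul, hβ₀.pow_eq_one, one_pow])
      have hprim : IsPrimitiveRoot (w * β₀ ^ s) (p * q) := by
        rw [← hu', ← pow_mul, ← pow_succ']
        refine hw.pow_of_coprime _ (Nat.Coprime.mul_right ?_ ?_)
        · refine (hp.coprime_iff_not_dvd.2 fun hd => hp.one_lt.ne' (Nat.dvd_one.1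
            ((Nat.dvd_add_right (hpq.mul_right u)).1 hd))).symm
        · rw [Nat.coprime_mul_left_add_left]
          exact Nat.coprime_one_left q
      refine (sum_congr rfl fun i _ => ?_).trans (relation_conj hm hw hprim univ a n h)
      rw [mul_pow]
      ring
    have := coeff_eq_zero_of_roots _ _ (by
      rw [card_image_of_injOn fun i hi j hj e =>
        hβ₀.pow_inj (by simpa using hi) (by simpa using hj) e, card_range])
      (sums_of_primitive hp.pos univ _ n _ hS) r hr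
    exact this
  · -- the twists by primitive `p`-th roots of a primitive `q`-th root
    have hcop : Nat.Coprime q p := (hp.coprime_iff_not_dvd.2 hpq).symm
    have hlt := hcase.resolve_left hpq
    have hα : IsPrimitiveRoot (w ^ p) q := hw.pow hm rfl
    have hprim : ∀ β : ℂ, IsPrimitiveRoot β p → IsPrimitiveRoot (w ^ p * β) (p * q) := by
      intro β hβ
      rw [IsPrimitiveRoot.iff_orderOf, (Commute.all _ _).orderOf_mul_eq_mul_orderOf_of_coprime
        (by rw [← hα.eq_orderOf, ← hβ.eq_orderOf]; exact hcop), ← hα.eq_orderOf, ← hβ.eq_orderOf,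
        mul_comm]
    obtain ⟨r₀, hr₀, hr₀'⟩ := exists_mem_notMem_of_card_lt_card
      (show #((univ : Finset ι).image fun i => n i % p) < #(range p) by
        rw [card_range]; exact card_image_le.trans_lt (by rwa [card_univ]))
    set A : ℕ → ℂ := fun r => ∑ i ∈ univ with n i % p = r, (a i : ℂ) * (w ^ p) ^ n i with hA
    have hA0 : A r₀ = 0 := by
      rw [hA]
      simp only
      rw [filter_eq_empty_iff.2 fun i _ hi => hr₀' (mem_image.2 ⟨i, mem_univ i, hi⟩), sum_empty]
    have hS : ∀ β ∈ primitiveRoots p ℂ,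
        β ^ p = 1 ∧ ∑ i, ((a i : ℂ) * (w ^ p) ^ n i) * β ^ n i = 0 := by
      intro β hβ
      rw [mem_primitiveRoots hp.pos] at hβ
      refine ⟨hβ.pow_eq_one, ?_⟩
      refine (sum_congr rfl fun i _ => ?_).trans
        (relation_conj hm hw (hprim β hβ) univ a n h)
      rw [mul_pow]
      ring
    have hgeom : ∀ β ∈ primitiveRoots p ℂ, ∑ i ∈ range p, β ^ i = 0 := fun β hβ =>
      ((mem_primitiveRoots hp.pos).1 hβ).geom_sum_eq_zero hp.one_lt
    have hsum := sums_of_primitive hp.pos univ _ n _ hS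
    obtain ⟨p', rfl⟩ : ∃ p', p = p' + 1 := ⟨p - 1, by have := hp.pos; omega⟩
    have hall : ∀ s < p', A s - A p' = 0 := by
      refine coeff_eq_zero_of_roots _ (primitiveRoots (p' + 1) ℂ) ?_ fun β hβ => ?_
      · rw [Complex.card_primitiveRoots, Nat.totient_prime hp, Nat.add_sub_cancel]
      · have h1 : ∑ s ∈ range (p' + 1), A s * β ^ s = 0 := hsum β hβ
        have h2 := hgeom β hβ
        rw [sum_range_succ] at h1 h2
        simp only [sub_mul, sum_sub_distrib, ← mul_sum]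
        linear_combination h1 - A p' * h2
    have hp' : A p' = 0 := by
      rcases (Nat.lt_succ_iff.1 (mem_range.1 hr₀)).lt_or_eq with hs | hs
      · have := hall r₀ hs
        rw [hA0, zero_sub, neg_eq_zero] at this
        exact this
      · exact hs ▸ hA0
    have hAr : A r = 0 := by
      rcases (Nat.lt_succ_iff.1 hr).lt_or_eq with hs | hs
      · have := hall r hs
        rwa [hp', sub_zero] at this
      · exact hs ▸ hp'
    refine relation_conj hm (hprim β₀ hβ₀) hw _ a n ?_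
    have hsplit : ∑ i ∈ univ with n i % (p' + 1) = r, (a i : ℂ) * (w ^ (p' + 1) * β₀) ^ n i =
        A r * β₀ ^ r := by
      rw [hA]
      simp only
      rw [sum_mul]
      refine sum_congr rfl fun i hi => ?_
      rw [mul_pow, pow_eq_pow_mod (n i) hβ₀.pow_eq_one, (mem_filter.1 hi).2, mul_assoc]
    rw [hsplit, hAr, zero_mul]

/-- **Mann's theorem.** -/
theorem mann (a : ι → ℚ) (ζ : ι → ℂ) (hζ : ∀ i, ∃ m, 0 < m ∧ ζ i ^ m = 1)
    (hsum : ∑ i, (a i : ℂ) * ζ i = 0)
    (hmin : ∀ T : Finset ι, ∑ i ∈ T, (a i : ℂ) * ζ i = 0 → T = ∅ ∨ T = univ) (j : ι) :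
    ∀ i, (ζ i / ζ j) ^ primorial (Fintype.card ι) = 1 := by
  classical
  have hex : ∃ m, 0 < m ∧ ∀ i, (ζ i / ζ j) ^ m = 1 := by
    choose m hm0 hm using hζ
    refine ⟨∏ i, m i, prod_pos fun i _ => hm0 i, fun i => ?_⟩
    obtain ⟨s, hs⟩ := dvd_prod_of_mem m (mem_univ i)
    obtain ⟨t, ht⟩ := dvd_prod_of_mem m (mem_univ j)
    rw [div_pow]
    nth_rw 1 [hs]
    rw [ht, pow_mul, pow_mul, hm, hm, one_pow, one_pow, div_one]
  obtain ⟨hm0, hm⟩ := Nat.find_spec hex
  set m := Nat.find hex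
  have hj : ζ j ≠ 0 := by
    obtain ⟨k, hk, hk'⟩ := hζ j
    intro h
    rw [h, zero_pow hk.ne'] at hk'
    exact zero_ne_one hk'
  obtain ⟨w, hw⟩ : ∃ w : ℂ, IsPrimitiveRoot w m := ⟨_, Complex.isPrimitiveRoot_exp m hm0.ne'⟩
  have : NeZero m := ⟨hm0.ne'⟩
  choose n hnlt hn using fun i => hw.eq_pow_of_pow_eq_one (hm i)
  have hnj : n j = 0 := by
    refine hw.pow_inj (hnlt j) hm0 ?_
    rw [hn, pow_zero, div_self hj]
  have key : ∀ T : Finset ι, ∑ i ∈ T, (a i : ℂ) * w ^ n i = (∑ i ∈ T, (a i : ℂ) * ζ i) / ζ j :=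
    fun T => by
      rw [sum_div]
      exact sum_congr rfl fun i _ => by rw [hn, mul_div_assoc]
  have step : ∀ p, p.Prime → p ∣ m → ¬p ^ 2 ∣ m ∧ p ≤ Fintype.card ι := by
    intro p hp hpm
    obtain ⟨q, hq⟩ := hpm
    by_contra hcon
    have hcase : p ∣ q ∨ Fintype.card ι < p := by
      by_contra hc
      refine hcon ⟨fun h2 => hc (Or.inl ?_), not_lt.1 fun h3 => hc (Or.inr h3)⟩
      rw [hq, sq] at h2
      exact Nat.dvd_of_mul_dvd_mul_left hp.pos h2
    have hq0 : 0 < q := Nat.pos_of_ne_zero fun h => hm0.ne' (by rw [hq, h, mul_zero])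
    have hg := groups_vanish hp hq0 (hq ▸ hw) a n hcase (by rw [key, hsum, zero_div]) 0
    rw [key, div_eq_zero_iff, or_iff_left hj] at hg
    rcases hmin _ hg with he | he
    · exact eq_empty_iff_forall_notMem.1 he j
        (mem_filter.2 ⟨mem_univ j, by rw [hnj, Nat.zero_mod]⟩)
    · refine Nat.find_min hex (m := q) ?_ ⟨hq0, fun i => ?_⟩
      · show q < m
        rw [hq]
        exact lt_mul_left hq0 hp.one_lt
      · have hi : i ∈ ({i | n i % p = 0} : Finset ι) := by rw [he]; exact mem_univ i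
        obtain ⟨s, hs⟩ := Nat.dvd_of_mod_eq_zero (mem_filter.1 hi).2
        rw [← hn i, hs, ← pow_mul, mul_assoc, mul_comm s, ← mul_assoc, ← hq, pow_mul,
          hw.pow_eq_one, one_pow]
  have hsq : Squarefree m := by
    refine Nat.squarefree_iff_prime_squarefree.2 fun p hp hd => ?_
    exact (step p hp ((dvd_mul_left p p).trans hd)).1 (by rwa [sq])
  have hdvd : m ∣ primorial (Fintype.card ι) := by
    rw [← Nat.prod_primeFactors_of_squarefree hsq, primorial]
    refine prod_dvd_prod_of_subset _ _ _ fun p hp => ?_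
    obtain ⟨h1, h2, -⟩ := Nat.mem_primeFactors.1 hp
    exact mem_filter.2 ⟨mem_range.2 (Nat.lt_succ_iff.2 (step p h1 h2).2), h1⟩
  intro i
  obtain ⟨s, hs⟩ := hdvd
  rw [hs, pow_mul, hm i, one_pow]

end FA.RootRelations

end
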